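import Fermat.Agent.Solvable.Characters
import Mathlib.GroupTheory.Solvable
import Mathlib.GroupTheory.Sylow
import Mathlib.GroupTheory.PGroup
import Mathlib.GroupTheory.Nilpotent
import Mathlib.GroupTheory.GroupAction.ConjAct

/-!
# Burnside's theorem on groups of order `pᵃ qᵇ`

A finite group with a conjugacy class of prime power size `> 1` has a proper non-trivial normal
subgroup: some non-trivial irreducible representation is scalar on the class, so its kernel works.
By induction a group of order `pᵃ qᵇ` is solvable, a central element of a Sylow subgroup having a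
class of prime power size.
-/

set_option autoImplicit false
set_option linter.style.haveILetI false

noncomputable section

open Finset Module

namespace FA.Solvable

open scoped Classical in
/-- The pairing of a sum of irreducible characters with one of them counts its occurrences. -/
theorem pairing_eq {G V : Type*} [Group G] [Fintype G] [AddCommGroup V] [Module ℂ V]
    [FiniteDimensional ℂ V] {ρ : Representation ℂ G V} {W : Type*} [AddCommGroup W] [Module ℂ W]
    [FiniteDimensional ℂ W] (σ : Representation ℂ G W) [Representation.IsIrreducible σ]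
    (M : Multiset (Subrepresentation ρ))
    (hM : ∀ W' ∈ M, Representation.IsIrreducible W'.toRepresentation) :
    (Nat.card G : ℂ)⁻¹ * ∑ x, (M.map fun W' => W'.toRepresentation.character x).sum *
      σ.character x⁻¹ =
    ((M.filter fun W' => W'.toRepresentation.character = σ.character).card : ℂ) := by
  induction M using Multiset.induction with
  | empty => simp
  | cons a M ih =>
    haveI := hM a (Multiset.mem_cons_self a M)
    simp only [Multiset.map_cons, Multiset.sum_cons, add_mul, Finset.sum_add_distrib, mul_add,
      ih fun W' hW' => hM W' (Multiset.mem_cons_of_mem hW'), inner_eq, Multiset.filter_cons]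
    split_ifs <;> simp [add_comm]

/-- **A conjugacy class of prime power size** excludes simplicity. -/
theorem exists_normal_of_class {G : Type*} [Group G] [Finite G] {p k : ℕ} (hp : p.Prime)
    (hk : k ≠ 0) {g : G} (hcard : Nat.card {x | IsConj g x} = p ^ k) :
    ∃ N : Subgroup G, N.Normal ∧ N ≠ ⊥ ∧ N ≠ ⊤ := by
  classical
  haveI := Fintype.ofFinite G
  haveI : Invertible (Nat.card G : ℂ) :=
    invertibleOfNonzero (Nat.cast_ne_zero.2 Nat.card_pos.ne')
  set C : Finset G := univ.filter (IsConj g)
  have hC : ∀ x, x ∈ C ↔ IsConj g x := fun x => by simp [C]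
  have hCcard : C.card = p ^ k := by
    rw [← hcard, Nat.card_eq_fintype_card]
    exact (Fintype.card_subtype _).symm
  have hg1 : g ≠ 1 := by
    rintro rfl
    have : C = {1} := by
      ext x
      rw [hC, mem_singleton, isConj_one_right, eq_comm]
    rw [this, card_singleton] at hCcard
    exact absurd hCcard (ne_of_lt (Nat.one_lt_pow hk hp.one_lt))
  -- decompose the regular representation
  let Utop : Subrepresentation (regular G) := ⊤
  obtain ⟨L, hL, hsum⟩ := exists_atoms (regular G) Utop
  have hreg : ∀ x, (L.map fun W => W.toRepresentation.character x).sum =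
      if x = 1 then (Nat.card G : ℂ) else 0 := fun x => by
    rw [← hsum, ← character_regular]
    refine (congrFun (Representation.char_iso (ρ := Utop.toRepresentation) (σ := regular G)
      (Representation.Equiv.mk (LinearEquiv.ofTop ⊤ rfl) fun h => ?_)) x)
    ext v
    rfl
  have hmult : ∀ W : Subrepresentation (regular G),
      Representation.IsIrreducible W.toRepresentation →
      ((L.filter fun W' => W'.toRepresentation.character = W.toRepresentation.character).card : ℂ) =
        W.toRepresentation.character 1 := by
    intro W hW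
    rw [← pairing_eq W.toRepresentation L hL,
      sum_eq_single 1 (fun x _ hx => by rw [hreg, if_neg hx, zero_mul])
      (fun h => absurd (mem_univ _) h), hreg, if_pos rfl, inv_one, ← mul_assoc,
      inv_mul_cancel₀ (Nat.cast_ne_zero.2 Nat.card_pos.ne'), one_mul]
  -- a representation with trivial character occurs once
  have htriv : (L.filter fun W => W.toRepresentation.character = fun _ => 1).card = 1 := by
    set T := Representation.trivial ℂ G ℂ
    haveI : Representation.IsIrreducible T := by
      haveI : Nontrivial (Subrepresentation T) := ⟨⊥, ⊤, fun h => by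
        have : (1 : ℂ) ∈ (⊥ : Subrepresentation T) := h ▸ trivial
        exact one_ne_zero (show (1 : ℂ) = 0 from this)⟩
      refine ⟨fun P => ?_⟩
      rcases eq_bot_or_eq_top P.toSubmodule with h | h
      · exact Or.inl (Subrepresentation.toSubmodule_injective h)
      · exact Or.inr (Subrepresentation.toSubmodule_injective h)
    have hT : T.character = fun _ => 1 := by
      funext x
      simp [T, Representation.character, Representation.trivial]
    have h2 := pairing_eq T L hL
    rw [sum_eq_single 1 (fun x _ hx => by rw [hreg, if_neg hx, zero_mul])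
      (fun h => absurd (mem_univ _) h), hreg, if_pos rfl, inv_one, ← mul_assoc,
      inv_mul_cancel₀ (Nat.cast_ne_zero.2 Nat.card_pos.ne'), one_mul, hT] at h2
    exact Nat.cast_eq_one.1 h2.symm
  -- some other constituent has degree prime to p and does not vanish at g
  obtain ⟨W, hWL, hW1, hWd, hWg⟩ : ∃ W ∈ L, W.toRepresentation.character ≠ (fun _ => 1) ∧
      Nat.Coprime p (finrank ℂ W.toSubmodule) ∧ W.toRepresentation.character g ≠ 0 := by
    by_contra hno
    push Not at hno
    set M := L.filter fun W => W.toRepresentation.character ≠ fun _ => 1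
    have hsplit : (1 : ℂ) + (M.map fun W => W.toRepresentation.character g).sum = 0 := by
      rw [← (if_neg hg1 : (if g = 1 then (Nat.card G : ℂ) else 0) = 0), ← hreg]
      conv_rhs => rw [← Multiset.filter_add_not
        (fun W : Subrepresentation (regular G) => W.toRepresentation.character = fun _ => 1) L,
        Multiset.map_add, Multiset.sum_add]
      congr 1
      rw [Multiset.map_congr rfl (g := fun _ => (1 : ℂ))
        fun W hW => congrFun (Multiset.mem_filter.1 hW).2 g, Multiset.map_const', htriv]
      simp
    set ch : Subrepresentation (regular G) → (G → ℂ) := fun W => W.toRepresentation.character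
    have hdiv : ∃ y : ℂ, IsIntegral ℤ y ∧ (M.map fun W => ch W g).sum = p * y := by
      have h3 : (M.map fun W => ch W g).sum = ((M.map ch).map fun c => c g).sum := by
        rw [Multiset.map_map]; rfl
      rw [h3, Finset.sum_multiset_map_count]
      refine Finset.sum_induction _ (fun z : ℂ => ∃ y : ℂ, IsIntegral ℤ y ∧ z = p * y)
        (fun a b ⟨y, hy, ha⟩ ⟨y', hy', hb⟩ => ⟨y + y', hy.add hy', by rw [ha, hb, mul_add]⟩)
        ⟨0, isIntegral_zero, by simp⟩ fun c hc => ?_
      obtain ⟨W, hW, rfl⟩ := Multiset.mem_map.1 (Multiset.mem_toFinset.1 hc)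
      obtain ⟨hWL, hW1⟩ := Multiset.mem_filter.1 hW
      by_cases h0 : ch W g = 0
      · exact ⟨0, isIntegral_zero, by rw [h0]; simp⟩
      have hpd : p ∣ finrank ℂ W.toSubmodule := by
        by_contra hpd
        exact h0 (hno W hWL hW1 (hp.coprime_iff_not_dvd.2 hpd))
      obtain ⟨m, hm⟩ := hpd
      have hcount : ((M.map ch).count (ch W) : ℂ) = (p : ℂ) * m := by
        rw [← Nat.cast_mul, ← hm, ← Representation.char_one W.toRepresentation,
          ← hmult W (hL W hWL),
          Multiset.count_map, Multiset.filter_filter]
        congr 2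
        refine Multiset.filter_congr fun W' _ => ⟨fun h => h.1.symm, fun h => ⟨h.symm, ?_⟩⟩
        show W'.toRepresentation.character ≠ _
        rw [h]
        exact hW1
      refine ⟨m * ch W g, (isIntegral_algebraMap (x := (m : ℤ))).mul (isIntegral_character _ g), ?_⟩
      rw [nsmul_eq_mul, hcount, mul_assoc]
    obtain ⟨y, hy, hy'⟩ := hdiv
    rw [hy'] at hsplit
    have hy2 : y = ((-(p : ℚ)⁻¹ : ℚ) : ℂ) := by
      have hp0 : (p : ℂ) ≠ 0 := Nat.cast_ne_zero.2 hp.ne_zero
      push_cast
      field_simp
      linear_combination hsplit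
    rw [hy2] at hy
    have hyq : IsIntegral ℤ (-(p : ℚ)⁻¹) :=
      (isIntegral_algHom_iff ((algebraMap ℚ ℂ).toIntAlgHom) (algebraMap ℚ ℂ).injective).1 hy
    obtain ⟨z, hz⟩ := IsIntegrallyClosed.isIntegral_iff.1 hyq
    rw [eq_intCast (algebraMap ℤ ℚ)] at hz
    have h1 : ((z * p : ℤ) : ℚ) = ((-1 : ℤ) : ℚ) := by
      push_cast
      rw [hz, neg_mul, inv_mul_cancel₀ (Nat.cast_ne_zero.2 hp.ne_zero)]
    have h2 : (p : ℤ) ∣ -1 := ⟨z, by rw [← Int.cast_inj.1 h1, mul_comm]⟩
    exact hp.ne_one (Nat.dvd_one.1 (Int.natCast_dvd.1 h2))
  haveI := hL W hWL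
  obtain ⟨z, hz⟩ := exists_scalar W.toRepresentation hC (by
    rw [hCcard]; exact hWd.pow_left k) hWg
  refine ⟨W.toRepresentation.ker, inferInstance, fun hbot => ?_, fun htop => ?_⟩
  · have hinj : Function.Injective W.toRepresentation :=
      (W.toRepresentation.ker_eq_bot_iff).1 hbot
    have hcen : ∀ x, IsConj g x → x = g := fun x hx => by
      obtain ⟨c, rfl⟩ := isConj_iff.1 hx
      refine hinj ?_
      rw [map_mul, map_mul, hz, mul_smul_comm, mul_one, smul_mul_assoc, ← map_mul, mul_inv_cancel,
        map_one]
    have : C = {g} := by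
      ext x
      rw [hC, mem_singleton]
      exact ⟨hcen x, fun h => h ▸ IsConj.refl g⟩
    rw [this, card_singleton] at hCcard
    exact absurd hCcard (ne_of_lt (Nat.one_lt_pow hk hp.one_lt))
  · have hone : ∀ x, W.toRepresentation x = 1 := fun x =>
      MonoidHom.mem_ker.1 (htop.ge (Subgroup.mem_top x))
    have hconst : ∀ x, W.toRepresentation.character x = (finrank ℂ W.toSubmodule : ℂ) := fun x => by
      rw [Representation.character, hone, LinearMap.trace_one]
    have h2 := inner_eq W.toRepresentation W.toRepresentation
    rw [if_pos rfl] at h2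
    simp only [hconst, sum_const, card_univ, nsmul_eq_mul, ← Nat.card_eq_fintype_card] at h2
    rw [← mul_assoc, inv_mul_cancel₀ (Nat.cast_ne_zero.2 Nat.card_pos.ne'), one_mul] at h2
    have hd1 : finrank ℂ W.toSubmodule = 1 :=
      Nat.eq_one_of_mul_eq_one_right (m := finrank ℂ W.toSubmodule) (by exact_mod_cast h2)
    exact hW1 (funext fun x => by rw [hconst, hd1, Nat.cast_one])

/-- **Burnside's `pᵃ qᵇ` theorem**, for divisors of such a number. -/
theorem isSolvable_of_dvd {p q : ℕ} (hp : p.Prime) (hq : q.Prime) (a b : ℕ) :
    ∀ (G : Type*) [Group G] [Finite G], Nat.card G ∣ p ^ a * q ^ b → Group.IsSolvable G := by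
  classical
  intro G _ _ hG
  generalize hn : Nat.card G = n
  induction n using Nat.strong_induction_on generalizing G with
  | _ n ih =>
    subst hn
    -- a normal subgroup reduces
    have hstep : ∀ N : Subgroup G, N.Normal → N ≠ ⊥ → N ≠ ⊤ → Group.IsSolvable G := by
      intro N hN hb ht
      haveI := hN
      have hmul := N.card_eq_card_quotient_mul_card_subgroup
      have h1 : Nat.card N < Nat.card G :=
        lt_of_le_of_ne N.card_le_card_group fun h => ht (N.eq_top_of_card_eq h)
      have h2 : 1 < Nat.card N := N.one_lt_card_iff_ne_bot.2 hb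
      have h3 : Nat.card (G ⧸ N) < Nat.card G := by
        rw [hmul]
        exact lt_mul_of_one_lt_right Nat.card_pos h2
      haveI := ih _ h1 N ((Dvd.intro_left _ hmul.symm).trans hG) rfl
      haveI := ih _ h3 (G ⧸ N) ((Dvd.intro _ hmul.symm).trans hG) rfl
      exact Group.isSolvable_of_ker_le_range N.subtype (QuotientGroup.mk' N) (by simp)
    obtain ⟨r, hr, hrdvd⟩ : ∃ r, r.Prime ∧ (r ∣ Nat.card G ∨ Nat.card G = 1) := by
      by_cases h1 : Nat.card G = 1
      · exact ⟨p, hp, Or.inr h1⟩
      · obtain ⟨r, hr, hd⟩ := Nat.exists_prime_and_dvd h1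
        exact ⟨r, hr, Or.inl hd⟩
    rcases hrdvd with hrdvd | h1
    swap
    · haveI : Subsingleton G := (Nat.card_eq_one_iff_unique.1 h1).1
      infer_instance
    haveI := Fact.mk hr
    obtain ⟨P⟩ : Nonempty (Sylow r G) := inferInstance
    haveI : Nontrivial (P : Subgroup G) := by
      rw [← Finite.one_lt_card_iff_nontrivial, P.card_eq_multiplicity]
      exact Nat.one_lt_pow (Nat.pos_iff_ne_zero.1
        (hr.factorization_pos_of_dvd Nat.card_pos.ne' hrdvd)) hr.one_lt
    haveI : Nontrivial (Subgroup.center (P : Subgroup G)) := P.2.center_nontrivial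
    obtain ⟨z, hz⟩ := exists_ne (1 : Subgroup.center (P : Subgroup G))
      
    set g : G := ((z : (P : Subgroup G)) : G)
    have hg1 : g ≠ 1 := fun h => hz (Subtype.ext (Subtype.ext h))
    have hidx : Nat.card {x | IsConj g x} = (Subgroup.centralizer ({g} : Set G)).index := by
      rw [show Subgroup.centralizer ({g} : Set G) = MulAction.stabilizer (ConjAct G) g from
          (ConjAct.stabilizer_eq_centralizer g).symm]
      refine (Nat.card_congr (Equiv.subtypeEquivRight fun x => ?_)).trans
          (MulAction.index_stabilizer (ConjAct G) g).symm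
      exact isConj_comm.trans ConjAct.mem_orbit_conjAct.symm
    have hle : (P : Subgroup G) ≤ Subgroup.centralizer ({g} : Set G) := fun x hx =>
      Subgroup.mem_centralizer_singleton_iff.2 (congrArg Subtype.val
        (Subgroup.mem_center_iff.1 z.2 ⟨x, hx⟩))
    have hdvd : (Subgroup.centralizer ({g} : Set G)).index ∣ (P : Subgroup G).index :=
      Subgroup.index_dvd_of_le hle
    have hrn : ¬ r ∣ (P : Subgroup G).index := P.not_dvd_index
    by_cases hone : Nat.card {x | IsConj g x} = 1
    · have hgc : g ∈ Subgroup.center G := by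
        rw [hidx, Subgroup.index_eq_one] at hone
        refine Subgroup.mem_center_iff.2 fun x => ?_
        have : x ∈ Subgroup.centralizer ({g} : Set G) := hone ▸ Subgroup.mem_top x
        exact Subgroup.mem_centralizer_singleton_iff.1 this
      by_cases ht : Subgroup.center G = ⊤
      · exact Group.isSolvable_of_comm fun x y =>
          Subgroup.mem_center_iff.1 (ht ▸ Subgroup.mem_top y) x
      · exact hstep _ inferInstance (fun hb => hg1 (Subgroup.mem_bot.1 (hb ▸ hgc))) ht
    · obtain ⟨s, hs, hsd⟩ := Nat.exists_prime_and_dvd hone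
      have hI : Nat.card {x | IsConj g x} ∣ Nat.card G :=
        hidx ▸ Subgroup.index_dvd_card _
      -- the class size is a power of `s`
      have hrs : ∀ t : ℕ, t.Prime → t ∣ p ^ a * q ^ b → t = p ∨ t = q := fun t ht h =>
        ((ht.dvd_mul).1 h).imp
          (fun h => (Nat.prime_dvd_prime_iff_eq ht hp).1 (ht.dvd_of_dvd_pow h))
          (fun h => (Nat.prime_dvd_prime_iff_eq ht hq).1 (ht.dvd_of_dvd_pow h))
      have huniq : ∀ t : ℕ, t.Prime → t ∣ Nat.card {x | IsConj g x} → t = s := by
        intro t ht htd
        have h1 := hrs r hr (hrdvd.trans hG)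
        have h2 := hrs s hs ((hsd.trans hI).trans hG)
        have h3 := hrs t ht ((htd.trans hI).trans hG)
        have h4 : r ≠ s := fun e => hrn (e.dvd.trans (hsd.trans (hidx.dvd.trans hdvd)))
        have h5 : r ≠ t := fun e => hrn (e.dvd.trans (htd.trans (hidx.dvd.trans hdvd)))
        omega
      have hpow := Nat.eq_prime_pow_of_unique_prime_dvd (n := Nat.card {x | IsConj g x})
        (Nat.card_ne_zero.2 ⟨⟨⟨g, IsConj.refl g⟩⟩, inferInstance⟩) @huniq
      obtain ⟨N, hN, hb, ht⟩ := exists_normal_of_class hs (fun h => hone (by
        rw [hpow, h, pow_zero])) hpow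
      exact hstep N hN hb ht

end FA.Solvable
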