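import Fermat.Agent.LinearGroups.Burnside
import Mathlib.RepresentationTheory.Character
import Mathlib.RepresentationTheory.Semisimple
import Mathlib.RepresentationTheory.Maschke
import Mathlib.RingTheory.Norm.Transitivity
import Mathlib.Analysis.Complex.Polynomial.Basic
import Mathlib.RingTheory.IntegralClosure.IntegrallyClosed
import Mathlib.RingTheory.Polynomial.RationalRoot

/-!
# Characters and conjugacy classes

An irreducible representation of dimension prime to the size of a conjugacy class is scalar there or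
has character `0` there; the regular character is the sum of the irreducible ones times their
degrees, in the form: for `g ≠ 1` the atoms of a decomposition of the regular representation, other
than the one with trivial character, have characters adding up to `-1`, each occurring as often as
its dimension.
-/

set_option autoImplicit false
set_option linter.style.haveILetI false

noncomputable section

open Finset Module
open scoped ComplexConjugate

namespace FA.Solvable

/-- An average of roots of unity which is an algebraic integer is `0` or each of them. -/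
theorem eq_average_of_isIntegral {e : ℕ} (he : e ≠ 0) {s : Multiset ℂ}
    (hs : ∀ x ∈ s, x ^ e = 1) (hint : IsIntegral ℤ (s.sum / Multiset.card s))
    (h0 : s.sum ≠ 0) : ∀ x ∈ s, x = s.sum / Multiset.card s := by
  classical
  set d := Multiset.card s with hd
  have hd0 : d ≠ 0 := fun h => h0 (by rw [Multiset.card_eq_zero.1 h, Multiset.sum_zero])
  set a := s.sum / (d : ℂ) with ha
  haveI : NeZero e := ⟨he⟩
  obtain ⟨z, hz⟩ := HasEnoughRootsOfUnity.exists_primitiveRoot ℂ e
  set L := IntermediateField.adjoin ℚ ({z} : Set ℂ)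
  haveI : FiniteDimensional ℚ L :=
    IntermediateField.adjoin.finiteDimensional ⟨Polynomial.X ^ e - 1,
      Polynomial.monic_X_pow_sub_C (1 : ℚ) he, by simp [hz.pow_eq_one]⟩
  have hmem : ∀ x ∈ s, x ∈ L := fun x hx => by
    obtain ⟨i, -, rfl⟩ := hz.eq_pow_of_pow_eq_one (hs x hx)
    exact pow_mem (IntermediateField.mem_adjoin_simple_self ℚ z) i
  have hsum : s.sum ∈ L := multiset_sum_mem _ hmem
  set t : Multiset L := s.pmap (fun x hx => (⟨x, hx⟩ : L)) hmem
  have ht : t.map L.val = s := by simp [t, Multiset.map_pmap, Multiset.pmap_eq_map]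
  have htc : Multiset.card t = d := by simp [t, hd]
  set b : L := t.sum / (d : L)
  have hb : (b : ℂ) = a := by
    show L.val b = a
    rw [map_div₀, map_multiset_sum, ht, map_natCast]
  have hle : ∀ σ : L →ₐ[ℚ] ℂ, ‖σ b‖ ≤ 1 := fun σ => by
    rw [map_div₀, map_natCast, map_multiset_sum, norm_div, Complex.norm_natCast,
      div_le_one (Nat.cast_pos.2 (Nat.pos_of_ne_zero hd0))]
    refine (norm_multiset_sum_le _).trans ?_
    have h1 : ∀ r ∈ (t.map σ).map (‖·‖), r ≤ (1 : ℝ) := fun r hr => by
      obtain ⟨y, hy, rfl⟩ := Multiset.mem_map.1 hr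
      obtain ⟨x, hx, rfl⟩ := Multiset.mem_map.1 hy
      have hxe : x ^ e = 1 := by
        obtain ⟨w, hw, rfl⟩ := Multiset.mem_pmap.1 hx
        exact Subtype.ext (hs w hw)
      exact (Complex.norm_eq_one_of_pow_eq_one (by rw [← map_pow, hxe, map_one]) he).le
    refine (Multiset.sum_le_card_nsmul _ _ h1).trans_eq ?_
    rw [Multiset.card_map, Multiset.card_map, htc, nsmul_one]
  have hone : ‖a‖ = 1 := by
    refine le_antisymm (hb ▸ hle L.val) (not_lt.1 fun hlt => ?_)
    have hN : ‖algebraMap ℚ ℂ (Algebra.norm ℚ b)‖ < 1 := by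
      rw [Algebra.norm_eq_prod_embeddings ℚ ℂ b, norm_prod]
      refine lt_of_eq_of_lt (Finset.mul_prod_erase _ _ (mem_univ L.val)).symm ?_
      exact (mul_le_of_le_one_right (norm_nonneg _)
        (prod_le_one (fun _ _ => norm_nonneg _) fun σ _ => hle σ)).trans_lt
        (show ‖(b : ℂ)‖ < 1 by rwa [hb])
    have hbi : IsIntegral ℤ b :=
      (isIntegral_algHom_iff (L.val.restrictScalars ℤ) L.val.injective).1
        (show IsIntegral ℤ (b : ℂ) by rw [hb]; exact hint)
    obtain ⟨k, hk⟩ := IsIntegrallyClosed.isIntegral_iff.1 (Algebra.isIntegral_norm ℚ hbi)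
    rw [← hk, ← IsScalarTower.algebraMap_apply, eq_intCast, Complex.norm_intCast,
      ← Int.cast_abs, ← Int.cast_one, Int.cast_lt, Int.abs_lt_one_iff] at hN
    rw [hN, map_zero, eq_comm, Algebra.norm_eq_zero_iff] at hk
    rw [hk] at hb
    exact h0 (by
      have : a = 0 := hb.symm.trans (map_zero L.val)
      rw [ha, div_eq_zero_iff] at this
      exact this.resolve_right (Nat.cast_ne_zero.2 hd0))
  intro x hx
  have hre : ∀ y ∈ s, (y * conj a).re ≤ 1 := fun y hy => (Complex.re_le_norm _).trans_eq (by
    rw [norm_mul, Complex.norm_eq_one_of_pow_eq_one (hs y hy) he, RCLike.norm_conj, hone, mul_one])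
  have hx1 : (x * conj a).re = 1 := by
    refine le_antisymm (hre x hx) (not_lt.1 fun hlt => ?_)
    obtain ⟨u, hu⟩ := Multiset.exists_cons_of_mem hx
    have h1 : ((s.map (fun y => y * conj a)).map Complex.re).sum = (d : ℝ) := by
      rw [← Complex.coe_reAddGroupHom, ← map_multiset_sum, Complex.coe_reAddGroupHom,
        Multiset.sum_map_mul_right, Multiset.map_id',
        show s.sum = (d : ℂ) * a by rw [ha, mul_div_cancel₀ _ (Nat.cast_ne_zero.2 hd0)],
        mul_assoc, Complex.mul_conj', hone]
      simp
    have hcard : d = Multiset.card u + 1 := by rw [hd, hu, Multiset.card_cons]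
    rw [hu, Multiset.map_cons, Multiset.map_cons, Multiset.sum_cons, hcard] at h1
    have h2 := Multiset.sum_le_card_nsmul ((u.map (fun y => y * conj a)).map Complex.re) 1
      fun r hr => by
        obtain ⟨y, hy, rfl⟩ := Multiset.mem_map.1 hr
        obtain ⟨w, hw, rfl⟩ := Multiset.mem_map.1 hy
        exact hre w (hu ▸ Multiset.mem_cons_of_mem hw)
    rw [Multiset.card_map, Multiset.card_map, nsmul_one] at h2
    push_cast at h1
    linarith
  have hxa : x * conj a = 1 := by
    refine Complex.ext hx1 (Complex.abs_re_eq_norm.1 ?_)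
    rw [hx1, abs_one, norm_mul, Complex.norm_eq_one_of_pow_eq_one (hs x hx) he, RCLike.norm_conj,
      hone, mul_one]
  calc x = x * conj a * a := by
        rw [mul_assoc, mul_comm (conj a), Complex.mul_conj', hone]; simp
    _ = a := by rw [hxa, one_mul]

variable {G : Type*} [Group G] [Fintype G] {V : Type*} [AddCommGroup V] [Module ℂ V]
  [FiniteDimensional ℂ V] (ρ : Representation ℂ G V)

theorem isIntegral_character (g : G) : IsIntegral ℤ (ρ.character g) := by
  classical
  set b := finBasis ℂ V
  set A := LinearMap.toMatrix b b (ρ g)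
  have hA : A ^ orderOf g = 1 := by
    rw [LinearMap.toMatrix_pow, ← map_pow, pow_orderOf_eq_one, map_one, LinearMap.toMatrix_one]
  rw [Representation.character, LinearMap.trace_eq_matrix_trace ℂ b,
    Matrix.trace_eq_sum_roots_charpoly]
  refine IsIntegral.multiset_sum fun x hx => ?_
  refine IsIntegral.of_pow (orderOf_pos g) ?_
  rw [FA.LinearGroups.pow_eq_one_of_mem_roots hA hx]
  exact isIntegral_one

/-- An irreducible representation of degree prime to the size of a conjugacy class is scalar on it
or has character `0` there. -/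
theorem exists_scalar [DecidableEq G] [Representation.IsIrreducible ρ] {g : G} {C : Finset G}
    (hC : ∀ x, x ∈ C ↔ IsConj g x) (hcop : Nat.Coprime C.card (finrank ℂ V))
    (hne : ρ.character g ≠ 0) : ∃ z : ℂ, ρ g = z • 1 := by
  classical
  set d := finrank ℂ V
  set K : V →ₗ[ℂ] V := ∑ x ∈ C, ρ x
  have hcomm : ∀ h, K ∘ₗ ρ h = ρ h ∘ₗ K := fun h => by
    show K * ρ h = ρ h * K
    rw [sum_mul, mul_sum]
    refine sum_nbij' (fun x => h⁻¹ * x * h) (fun x => h * x * h⁻¹) (fun x hx => (hC _).2 ?_)
      (fun x hx => (hC _).2 ?_) (fun x _ => by simp [mul_assoc]) (fun x _ => by simp [mul_assoc])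
      fun x _ => by simp only [← map_mul, mul_assoc, mul_inv_cancel_left]
    · exact ((hC x).1 hx).trans (isConj_iff.2 ⟨h⁻¹, by rw [inv_inv]⟩)
    · exact ((hC x).1 hx).trans (isConj_iff.2 ⟨h, rfl⟩)
  obtain ⟨w, hw⟩ :=
    (Representation.IsIrreducible.algebraMap_intertwiningMap_bijective_of_isAlgClosed
      (ρ := ρ)).2 ⟨K, hcomm⟩
  have hK : K = algebraMap ℂ (Module.End ℂ V) w :=
    (congrArg Representation.IntertwiningMap.toLinearMap hw).symm
  have hwi : IsIntegral ℤ w := by
    haveI : Algebra.IsIntegral ℤ (MonoidAlgebra ℤ G) := Algebra.IsIntegral.of_finite ℤ _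
    have h1 := (Algebra.IsIntegral.isIntegral (R := ℤ)
      (∑ x ∈ C, MonoidAlgebra.of ℤ G x)).map (MonoidAlgebra.lift ℤ (Module.End ℂ V) G ρ)
    rw [map_sum] at h1
    simp only [MonoidAlgebra.lift_of] at h1
    haveI : Nontrivial V := by
      by_contra hnt
      haveI := not_nontrivial_iff_subsingleton.1 hnt
      exact hne (by rw [Representation.character, Subsingleton.elim (ρ g) 0, map_zero])
    exact (isIntegral_algebraMap_iff (algebraMap ℂ (Module.End ℂ V)).injective).1 (hK ▸ h1)
  have htr : (C.card : ℂ) * ρ.character g = w * d := by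
    have h1 := congrArg (LinearMap.trace ℂ V) hK
    rw [map_sum, Algebra.algebraMap_eq_smul_one, map_smul, LinearMap.trace_one, smul_eq_mul] at h1
    rw [← h1, sum_congr rfl fun x hx => ?_, sum_const, nsmul_eq_mul]
    obtain ⟨c, rfl⟩ := isConj_iff.1 ((hC x).1 hx)
    exact ρ.char_conj g c
  have hd : d ≠ 0 := by
    intro hd
    haveI := (Module.finrank_zero_iff (R := ℂ) (M := V)).1 hd
    exact hne (by rw [Representation.character, Subsingleton.elim (ρ g) 0, map_zero])
  have hint : IsIntegral ℤ (ρ.character g / d) := by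
    have hbez : (C.card : ℤ) * C.card.gcdA d + d * C.card.gcdB d = 1 := by
      rw [← Nat.gcd_eq_gcd_ab, show C.card.gcd d = 1 from hcop, Nat.cast_one]
    have : ρ.character g / d =
        (C.card.gcdA d : ℂ) * w + (C.card.gcdB d : ℂ) * ρ.character g := by
      have hb := congrArg (fun k : ℤ => (k : ℂ)) hbez
      push_cast at hb
      rw [div_eq_iff (Nat.cast_ne_zero.2 hd)]
      linear_combination (-(ρ.character g)) * hb + (C.card.gcdA d : ℂ) * htr
    rw [this]
    exact ((isIntegral_algebraMap (x := C.card.gcdA d)).mul hwi).add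
      ((isIntegral_algebraMap (x := C.card.gcdB d)).mul (isIntegral_character ρ g))
  set b := finBasis ℂ V
  set A := LinearMap.toMatrix b b (ρ g) with hAdef
  have hA : A ^ orderOf g = 1 := by
    rw [LinearMap.toMatrix_pow, ← map_pow, pow_orderOf_eq_one, map_one, LinearMap.toMatrix_one]
  have hchar : ρ.character g = A.charpoly.roots.sum := by
    rw [Representation.character, LinearMap.trace_eq_matrix_trace ℂ b,
      ← Matrix.trace_eq_sum_roots_charpoly]
  have hcard : Multiset.card A.charpoly.roots = d := by
    rw [← (IsAlgClosed.splits A.charpoly).natDegree_eq_card_roots,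
      Matrix.charpoly_natDegree_eq_dim, Fintype.card_fin]
  have hall := eq_average_of_isIntegral (orderOf_pos g).ne'
    (fun x hx => FA.LinearGroups.pow_eq_one_of_mem_roots hA hx)
    (by rw [← hchar, hcard]; exact hint) (hchar ▸ hne)
  set z := A.charpoly.roots.sum / (Multiset.card A.charpoly.roots : ℂ) with hz
  obtain ⟨x, hx⟩ : ∃ x, x ∈ A.charpoly.roots :=
    Multiset.exists_mem_of_ne_zero fun h => hd (by rw [← hcard, h, Multiset.card_zero])
  have hze : z ^ orderOf g = 1 := hall x hx ▸ FA.LinearGroups.pow_eq_one_of_mem_roots hA hx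
  have hz0 : z ≠ 0 := fun h => by simp [h, (orderOf_pos g).ne'] at hze
  have hone := FA.LinearGroups.eq_one_of_trace' (A := z⁻¹ • A) (orderOf_pos g).ne'
    (by rw [smul_pow, inv_pow, hze, inv_one, one_smul, hA])
    (by
      rw [Matrix.trace_smul, Matrix.trace_eq_sum_roots_charpoly, smul_eq_mul, Fintype.card_fin,
        inv_mul_eq_iff_eq_mul₀ hz0, hz, hcard, div_mul_cancel₀ _ (Nat.cast_ne_zero.2 hd)])
  refine ⟨z, (LinearMap.toMatrix b b).injective ?_⟩
  rw [map_smul, LinearMap.toMatrix_one, ← hAdef, ← hone, smul_inv_smul₀ hz0]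

open scoped Classical in
/-- Two irreducible characters are orthonormal as functions. -/
theorem inner_eq {W : Type*} [AddCommGroup W] [Module ℂ W] [FiniteDimensional ℂ W]
    (σ : Representation ℂ G W) [Representation.IsIrreducible ρ] [Representation.IsIrreducible σ] :
    (Nat.card G : ℂ)⁻¹ * ∑ g, ρ.character g * σ.character g⁻¹ =
      if ρ.character = σ.character then 1 else 0 := by
  haveI : Invertible (Nat.card G : ℂ) :=
    invertibleOfNonzero (Nat.cast_ne_zero.2 Nat.card_pos.ne')
  rw [Representation.char_orthonormal]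
  rcases isEmpty_or_nonempty (σ.Equiv ρ) with hE | hE
  · rw [if_neg (not_nonempty_iff.2 hE), if_neg fun heq => ?_]
    have h1 := Representation.char_orthonormal (k := ℂ) ρ ρ
    have h2 := Representation.char_orthonormal (k := ℂ) ρ σ
    rw [if_pos ⟨Representation.Equiv.refl ρ⟩] at h1
    rw [if_neg (not_nonempty_iff.2 hE), ← heq, h1] at h2
    exact one_ne_zero h2
  · rw [if_pos hE, if_pos (Representation.char_iso hE.some).symm]

/-- The regular representation on functions. -/
def regular (G : Type*) [Group G] : Representation ℂ G (G → ℂ) where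
  toFun g := LinearMap.funLeft ℂ ℂ fun x => g⁻¹ * x
  map_one' := by ext f x; simp [LinearMap.funLeft]
  map_mul' a b := by ext f x; simp [LinearMap.funLeft, mul_assoc]

theorem character_regular [DecidableEq G] (g : G) :
    (regular G).character g = if g = 1 then (Nat.card G : ℂ) else 0 := by
  rw [Representation.character, LinearMap.trace_eq_matrix_trace ℂ (Pi.basisFun ℂ G), Matrix.trace]
  have h : ∀ x, (LinearMap.toMatrix (Pi.basisFun ℂ G) (Pi.basisFun ℂ G) (regular G g)).diag x =
      if g = 1 then 1 else 0 := fun x => by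
    rw [Matrix.diag, LinearMap.toMatrix_apply, Pi.basisFun_apply, Pi.basisFun_repr]
    show Pi.single (M := fun _ => ℂ) x (1 : ℂ) (g⁻¹ * x) = _
    by_cases hg : g = 1
    · simp [hg]
    · rw [if_neg hg, Pi.single_eq_of_ne]
      exact fun h => hg (inv_eq_one.1 (mul_eq_right.1 h))
  rw [sum_congr rfl fun x _ => h x, sum_const, card_univ, Nat.card_eq_fintype_card, nsmul_eq_mul]
  split_ifs <;> simp

/-- A character is the sum of those of irreducible constituents. -/
theorem exists_atoms (U : Subrepresentation ρ) :
    ∃ L : Multiset (Subrepresentation ρ),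
      (∀ W ∈ L, Representation.IsIrreducible W.toRepresentation) ∧
      ∀ g, U.toRepresentation.character g =
        (L.map fun W => W.toRepresentation.character g).sum := by
  classical
  haveI : NeZero (Nat.card G : ℂ) := ⟨Nat.cast_ne_zero.2 Nat.card_pos.ne'⟩
  haveI : ComplementedLattice (Subrepresentation ρ) :=
    (Representation.isSemisimpleRepresentation_iff_isSemisimpleModule_asModule ρ).2 inferInstance
  generalize hn : finrank ℂ U.toSubmodule = n
  induction n using Nat.strong_induction_on generalizing U with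
  | _ n ih =>
    subst hn
    by_cases hU : U.toSubmodule = ⊥
    · refine ⟨0, by simp, fun g => ?_⟩
      haveI : Subsingleton U.toSubmodule := by rw [hU]; infer_instance
      rw [Representation.character, Subsingleton.elim (U.toRepresentation g) 0, map_zero]
      simp
    by_cases hatom : ∀ U₁ : Subrepresentation ρ, U₁.toSubmodule ≤ U.toSubmodule →
        U₁.toSubmodule = ⊥ ∨ U₁.toSubmodule = U.toSubmodule
    · refine ⟨{U}, fun W hW => ?_, fun g => by simp⟩
      rw [Multiset.mem_singleton.1 hW]
      haveI : Nontrivial (Subrepresentation U.toRepresentation) :=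
        ⟨⊥, ⊤, fun h => hU (Submodule.eq_bot_iff _ |>.2 fun x hx => by
          have hmem : (⟨x, hx⟩ : U.toSubmodule) ∈ (⊥ : Subrepresentation U.toRepresentation) :=
            h ▸ trivial
          exact congrArg Subtype.val (show (⟨x, hx⟩ : U.toSubmodule) = 0 from hmem))⟩
      refine ⟨fun P => ?_⟩
      set P' : Subrepresentation ρ := ⟨P.toSubmodule.map U.toSubmodule.subtype, fun h v hv => by
        obtain ⟨w, hw, rfl⟩ := hv
        exact ⟨U.toRepresentation h w, P.apply_mem_toSubmodule h hw, rfl⟩⟩
      rcases hatom P' (Submodule.map_subtype_le _ _) with h1 | h1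
      · left
        refine Subrepresentation.toSubmodule_injective ?_
        exact Submodule.map_injective_of_injective U.toSubmodule.subtype_injective
          (h1.trans (Submodule.map_bot _).symm)
      · right
        refine Subrepresentation.toSubmodule_injective ?_
        exact Submodule.map_injective_of_injective U.toSubmodule.subtype_injective
          (h1.trans (Submodule.map_subtype_top _).symm)
    push Not at hatom
    obtain ⟨U₁, hle, hne0, hneU⟩ := hatom
    obtain ⟨U₂, hc⟩ := exists_isCompl U₁
    have hdis : U₁.toSubmodule ⊓ (U₂ ⊓ U).toSubmodule = ⊥ := by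
      refine Submodule.eq_bot_iff _ |>.2 fun x hx => ?_
      exact (show x ∈ (⊥ : Subrepresentation ρ) from hc.inf_eq_bot ▸ ⟨hx.1, hx.2.1⟩)
    have hsup : U.toSubmodule ≤ U₁.toSubmodule ⊔ (U₂ ⊓ U).toSubmodule := fun x hx => by
      obtain ⟨a, ha, b, hb, rfl⟩ := Submodule.mem_sup.1
        (show x ∈ U₁.toSubmodule ⊔ U₂.toSubmodule from
          (show x ∈ U₁ ⊔ U₂ from hc.sup_eq_top ▸ trivial))
      exact Submodule.mem_sup.2
        ⟨a, ha, b, ⟨hb, by simpa using U.toSubmodule.sub_mem hx (hle ha)⟩, rfl⟩
    have hle₂ : (U₂ ⊓ U).toSubmodule ≤ U.toSubmodule := fun x hx => hx.2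
    have hlt₁ : U₁.toSubmodule < U.toSubmodule := lt_of_le_of_ne hle hneU
    have hlt₂ : (U₂ ⊓ U).toSubmodule < U.toSubmodule := lt_of_le_of_ne hle₂ fun h => hne0 <| by
      rwa [h, inf_eq_left.2 hle] at hdis
    obtain ⟨L₁, hL₁, hc₁⟩ := ih _ (Submodule.finrank_lt_finrank_of_lt hlt₁) U₁ rfl
    obtain ⟨L₂, hL₂, hc₂⟩ := ih _ (Submodule.finrank_lt_finrank_of_lt hlt₂) (U₂ ⊓ U) rfl
    refine ⟨L₁ + L₂, fun W hW => (Multiset.mem_add.1 hW).elim (hL₁ W) (hL₂ W), fun g => ?_⟩
    rw [Multiset.map_add, Multiset.sum_add, ← hc₁, ← hc₂]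
    set f : U₁.toSubmodule × (U₂ ⊓ U).toSubmodule →ₗ[ℂ] U.toSubmodule :=
      (Submodule.inclusion hle).coprod (Submodule.inclusion hle₂)
    have hf : Function.Bijective f := by
      refine ⟨(injective_iff_map_eq_zero f).2 fun x hx => ?_, fun y => ?_⟩
      · have h0 : (x.1 : V) + (x.2 : V) = 0 := congrArg Subtype.val hx
        have h1 : (x.1 : V) ∈ U₁.toSubmodule ⊓ (U₂ ⊓ U).toSubmodule :=
          ⟨x.1.2, by rw [eq_neg_of_add_eq_zero_left h0]; exact neg_mem x.2.2⟩
        rw [hdis, Submodule.mem_bot] at h1
        exact Prod.ext (Subtype.ext h1) (Subtype.ext (by rwa [h1, zero_add] at h0))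
      · obtain ⟨a, ha, b, hb, hab⟩ := Submodule.mem_sup.1 (hsup y.2)
        exact ⟨(⟨a, ha⟩, ⟨b, hb⟩), Subtype.ext hab⟩
    set ef := LinearEquiv.ofBijective f hf
    have hconj : U.toRepresentation g =
        ef.conj ((U₁.toRepresentation g).prodMap ((U₂ ⊓ U).toRepresentation g)) := by
      refine LinearMap.ext fun y => ?_
      obtain ⟨x, rfl⟩ := ef.surjective y
      rw [LinearEquiv.conj_apply_apply, LinearEquiv.symm_apply_apply]
      exact Subtype.ext (map_add (ρ g) _ _)
    rw [Representation.character, hconj, LinearMap.trace_conj', LinearMap.trace_prodMap',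
      Representation.character, Representation.character]

end FA.Solvable
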